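import Mathlib

/-!
# The power residue character modulo a prime with finite residue field

`R` a domain, `q` a maximal ideal with finite residue field `k = R ⧸ q` of cardinality `N`,
`ζ ∈ R` a primitive `p`-th root of unity (`p` prime, `p ∉ q`). Then `p ∣ N - 1` and there is a
multiplicative character `χ : k → R` with `χ u ≡ u ^ ((N - 1) / p) mod q`, taking values in
`{0} ∪ {ζ ^ i}`.
-/

set_option autoImplicit false
set_option linter.style.haveILetI false
set_option linter.unusedSectionVars false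

namespace Fermat.Agent.S14

open Finset

section

variable {R : Type*} [CommRing R] [IsDomain R] (q : Ideal R) [hq : q.IsMaximal]
  {p : ℕ} [hp : Fact p.Prime] {ζ : R} (hζ : IsPrimitiveRoot ζ p) (hpq : (p : R) ∉ q)

include hζ hpq

/-- The reduction of `ζ` is still a primitive `p`-th root of unity. -/
theorem isPrimitiveRoot_mk : IsPrimitiveRoot (Ideal.Quotient.mk q ζ) p := by
  have h1 : (Ideal.Quotient.mk q ζ) ^ p = 1 := by
    rw [← map_pow, hζ.pow_eq_one, map_one]
  have h2 : Ideal.Quotient.mk q ζ ≠ 1 := by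
    intro h
    apply hpq
    have hmem : 1 - ζ ∈ q := by
      rw [← Ideal.Quotient.eq_zero_iff_mem, map_sub, h, map_one, sub_self]
    obtain ⟨n, hn⟩ : ∃ n, p = n + 1 := ⟨p - 1, (Nat.succ_pred_eq_of_pos hp.out.pos).symm⟩
    have hprod := IsPrimitiveRoot.prod_one_sub_pow_eq_order (hn ▸ hζ)
    have hn0 : 0 < n := by
      have := hp.out.two_le
      omega
    have : ((n : R) + 1) ∈ q := by
      rw [← hprod, ← Finset.mul_prod_erase (Finset.range n) _ (Finset.mem_range.mpr hn0)]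
      apply Ideal.mul_mem_right
      simpa using hmem
    rw [hn]
    push_cast
    exact this
  rw [← orderOf_eq_prime h1 h2]
  exact IsPrimitiveRoot.orderOf _

variable [Fintype (R ⧸ q)]

/-- `p` divides `N - 1`. -/
theorem dvd_card_quotient_sub_one : p ∣ Fintype.card (R ⧸ q) - 1 := by
  letI := Ideal.Quotient.field q
  have h := isPrimitiveRoot_mk q hζ hpq
  have hne : Ideal.Quotient.mk q ζ ≠ 0 := by
    intro h0
    have := h.pow_eq_one
    rw [h0, zero_pow hp.out.ne_zero] at this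
    exact zero_ne_one this
  exact (h.pow_eq_one_iff_dvd _).mp (FiniteField.pow_card_sub_one_eq_one _ hne)

end

/-- Powers of a primitive root coincide iff the exponents are congruent. -/
theorem pow_eq_pow_iff_modEq_of_isPrimitiveRoot {M : Type*} [CommMonoid M] {k : ℕ} {ζ : M}
    (h : IsPrimitiveRoot ζ k) (hk : 0 < k) {a b : ℕ} : ζ ^ a = ζ ^ b ↔ a ≡ b [MOD k] := by
  have hfin : IsOfFinOrder ζ := isOfFinOrder_iff_pow_eq_one.mpr ⟨k, hk, h.pow_eq_one⟩
  rw [hfin.pow_eq_pow_iff_modEq, ← h.eq_orderOf]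

section character

variable {R : Type*} [CommRing R] [IsDomain R] (q : Ideal R) [hq : q.IsMaximal]
  [Fintype (R ⧸ q)] {p : ℕ} [hp : Fact p.Prime] {ζ : R} (hζ : IsPrimitiveRoot ζ p)
  (hpq : (p : R) ∉ q)

/-- The exponent `(N - 1) / p`. -/
noncomputable def resExp (p : ℕ) : ℕ := (Fintype.card (R ⧸ q) - 1) / p

include hζ hpq in
theorem mul_resExp : p * resExp q p = Fintype.card (R ⧸ q) - 1 :=
  Nat.mul_div_cancel' (dvd_card_quotient_sub_one q hζ hpq)

include hζ hpq in
theorem resExp_pos : 0 < resExp q p := by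
  have h := mul_resExp q hζ hpq
  have h2 : 1 < Fintype.card (R ⧸ q) := by
    letI := Ideal.Quotient.field q
    exact Fintype.one_lt_card
  rcases Nat.eq_zero_or_pos (resExp q p) with h0 | h0
  · rw [h0, mul_zero] at h
    omega
  · exact h0

include hζ hpq in
theorem exists_pow_eq_pow_resExp (u : (R ⧸ q)ˣ) :
    ∃ i < p, (Ideal.Quotient.mk q ζ) ^ i = (u : R ⧸ q) ^ resExp q p := by
  letI := Ideal.Quotient.field q
  haveI : NeZero p := ⟨hp.out.ne_zero⟩
  apply (isPrimitiveRoot_mk q hζ hpq).eq_pow_of_pow_eq_one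
  rw [← pow_mul, mul_comm, mul_resExp q hζ hpq]
  exact FiniteField.pow_card_sub_one_eq_one _ u.ne_zero

/-- The index `i` with `ζ ^ i ≡ u ^ ((N - 1) / p)`. -/
noncomputable def resIdx (u : (R ⧸ q)ˣ) : ℕ := (exists_pow_eq_pow_resExp q hζ hpq u).choose

theorem resIdx_lt (u : (R ⧸ q)ˣ) : resIdx q hζ hpq u < p :=
  (exists_pow_eq_pow_resExp q hζ hpq u).choose_spec.1

theorem mk_pow_resIdx (u : (R ⧸ q)ˣ) :
    (Ideal.Quotient.mk q ζ) ^ resIdx q hζ hpq u = (u : R ⧸ q) ^ resExp q p :=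
  (exists_pow_eq_pow_resExp q hζ hpq u).choose_spec.2

theorem resIdx_mul (u v : (R ⧸ q)ˣ) :
    resIdx q hζ hpq (u * v) ≡ resIdx q hζ hpq u + resIdx q hζ hpq v [MOD p] := by
  rw [← pow_eq_pow_iff_modEq_of_isPrimitiveRoot (isPrimitiveRoot_mk q hζ hpq) hp.out.pos,
    pow_add, mk_pow_resIdx, mk_pow_resIdx, mk_pow_resIdx, Units.val_mul, mul_pow]

/-- The power residue character, as a homomorphism on units. -/
noncomputable def resCharHom : (R ⧸ q)ˣ →* Rˣ :=
  MonoidHom.mk' (fun u => (hζ.isUnit hp.out.ne_zero).unit ^ resIdx q hζ hpq u) (by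
    intro u v
    apply Units.ext
    rw [Units.val_mul, Units.val_pow_eq_pow_val, Units.val_pow_eq_pow_val,
      Units.val_pow_eq_pow_val, IsUnit.unit_spec, ← pow_add,
      pow_eq_pow_iff_modEq_of_isPrimitiveRoot hζ hp.out.pos]
    exact resIdx_mul q hζ hpq u v)

theorem resCharHom_apply (u : (R ⧸ q)ˣ) :
    ((resCharHom q hζ hpq u : Rˣ) : R) = ζ ^ resIdx q hζ hpq u := by
  simp [resCharHom]

/-- The power residue character `χ : R ⧸ q → R`. -/
noncomputable def resChar : MulChar (R ⧸ q) R := MulChar.ofUnitHom (resCharHom q hζ hpq)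

theorem resChar_apply_unit (u : (R ⧸ q)ˣ) :
    resChar q hζ hpq (u : R ⧸ q) = ζ ^ resIdx q hζ hpq u := by
  rw [resChar, MulChar.ofUnitHom_coe, resCharHom_apply]

/-- `χ u ≡ u ^ ((N - 1) / p)` modulo `q`. -/
theorem mk_resChar (x : R ⧸ q) :
    Ideal.Quotient.mk q (resChar q hζ hpq x) = x ^ resExp q p := by
  letI := Ideal.Quotient.field q
  by_cases hx : IsUnit x
  · obtain ⟨u, rfl⟩ := hx
    rw [resChar_apply_unit, map_pow, mk_pow_resIdx]
  · rw [MulChar.map_nonunit _ hx, map_zero]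
    have hx0 : x = 0 := by
      by_contra h
      exact hx (isUnit_iff_ne_zero.mpr h)
    rw [hx0, zero_pow (resExp_pos q hζ hpq).ne']

/-- The values of `χ` are `0` or powers of `ζ`. -/
theorem resChar_eq_zero_or_pow (x : R ⧸ q) :
    resChar q hζ hpq x = 0 ∨ ∃ i, resChar q hζ hpq x = ζ ^ i := by
  by_cases hx : IsUnit x
  · obtain ⟨u, rfl⟩ := hx
    exact Or.inr ⟨_, resChar_apply_unit q hζ hpq u⟩
  · exact Or.inl (MulChar.map_nonunit _ hx)

/-- `χ ^ c ≠ 1` for `0 < c < p`. -/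
theorem resChar_pow_ne_one {c : ℕ} (hc : 0 < c) (hcp : c < p) : resChar q hζ hpq ^ c ≠ 1 := by
  classical
  letI := Ideal.Quotient.field q
  intro h
  obtain ⟨g, hg⟩ := IsCyclic.exists_generator (α := (R ⧸ q)ˣ)
  have hord : orderOf g = Fintype.card (R ⧸ q) - 1 := by
    rw [orderOf_eq_card_of_forall_mem_zpowers hg, Nat.card_eq_fintype_card, Fintype.card_units]
  have h1 : (resChar q hζ hpq ^ c) (g : R ⧸ q) = 1 := by
    rw [h, MulChar.one_apply_coe]
  rw [MulChar.pow_apply' _ hc.ne', resChar_apply_unit] at h1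
  have h2 : ((g : R ⧸ q) ^ resExp q p) ^ c = 1 := by
    rw [← mk_pow_resIdx q hζ hpq g, ← map_pow, ← map_pow, h1, map_one]
  rw [← pow_mul, ← Units.val_pow_eq_pow_val, Units.val_eq_one] at h2
  have h3 := orderOf_dvd_of_pow_eq_one h2
  rw [hord, ← mul_resExp q hζ hpq] at h3
  have hm := resExp_pos q hζ hpq
  have h4 : p * resExp q p ≤ resExp q p * c := Nat.le_of_dvd (Nat.mul_pos hm hc) h3
  have h5 : resExp q p * c < resExp q p * p := Nat.mul_lt_mul_of_pos_left hcp hm
  rw [mul_comm p] at h4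
  omega

/-- A ring endomorphism of `R` sending `ζ` to `ζ ^ c` maps `χ` to `χ ^ c`. -/
theorem resChar_ringHomComp (τ : R →+* R) {c : ℕ} (hc : c ≠ 0) (hτ : τ ζ = ζ ^ c) :
    (resChar q hζ hpq).ringHomComp τ = resChar q hζ hpq ^ c := by
  apply MulChar.ext
  intro u
  rw [MulChar.ringHomComp_apply, MulChar.pow_apply' _ hc, resChar_apply_unit, map_pow, hτ,
    ← pow_mul, ← pow_mul, mul_comm]

end character

end Fermat.Agent.S14
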