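import Mathlib

/-!
# Power sums over finite fields (for the Jacobi sum congruence)
-/

set_option autoImplicit false

namespace Fermat.Agent.S14

open Finset

/-- In a finite field `K` with `q` elements, `∑ x, x ^ n * (1 - x) ^ n = 0` as soon as
`2 * n < q - 1`. -/
theorem sum_pow_mul_one_sub_pow_eq_zero {K : Type*} [Field K] [Fintype K] (n : ℕ)
    (h : 2 * n < Fintype.card K - 1) : ∑ x : K, x ^ n * (1 - x) ^ n = 0 := by
  have hexp : ∀ x : K, x ^ n * (1 - x) ^ n =
      ∑ i ∈ range (n + 1), ((n.choose i : K) * (-1) ^ i) * x ^ (n + i) := by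
    intro x
    have h1 : (1 - x) ^ n = ∑ i ∈ range (n + 1), (n.choose i : K) * (-1) ^ i * x ^ i := by
      have h2 : (1 - x) = (-x) + 1 := by ring
      rw [h2, add_pow]
      refine sum_congr rfl fun i _ => ?_
      rw [one_pow, mul_one, neg_pow]
      ring
    rw [h1, mul_sum]
    refine sum_congr rfl fun i _ => ?_
    rw [pow_add]
    ring
  simp_rw [hexp]
  rw [sum_comm]
  refine sum_eq_zero fun i hi => ?_
  rw [← mul_sum, FiniteField.sum_pow_lt_card_sub_one, mul_zero]
  have : i ≤ n := Nat.lt_succ_iff.mp (mem_range.mp hi)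
  omega

end Fermat.Agent.S14
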