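import Mathlib
import Fermat.Agent.S14.Stick.PowerSum
import Fermat.Agent.S14.Stick.Character

/-!
# The Jacobi sum of the power residue character: congruence and norm relation
-/

set_option autoImplicit false
set_option linter.style.haveILetI false
set_option linter.unusedSectionVars false

namespace Fermat.Agent.S14

open Finset

section jacobi

variable {R : Type*} [CommRing R] [IsDomain R] (q : Ideal R) [hq : q.IsMaximal]
  [Fintype (R ⧸ q)] {p : ℕ} [hp : Fact p.Prime] {ζ : R} (hζ : IsPrimitiveRoot ζ p)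
  (hpq : (p : R) ∉ q)

/-- The Jacobi sum `J(χ, χ)` of the power residue character. -/
noncomputable def stickJ : R := jacobiSum (resChar q hζ hpq) (resChar q hζ hpq)

/-- `J(χ ^ c, χ ^ c) ∈ q` for `0 < c`, `2 c < p`. -/
theorem jacobiSum_resChar_pow_mem {c : ℕ} (hc : 0 < c) (h2c : 2 * c < p) :
    jacobiSum (resChar q hζ hpq ^ c) (resChar q hζ hpq ^ c) ∈ q := by
  letI := Ideal.Quotient.field q
  rw [← Ideal.Quotient.eq_zero_iff_mem, jacobiSum, map_sum]
  have hterm : ∀ x : R ⧸ q, Ideal.Quotient.mk q ((resChar q hζ hpq ^ c) x *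
      (resChar q hζ hpq ^ c) (1 - x)) = x ^ (resExp q p * c) * (1 - x) ^ (resExp q p * c) := by
    intro x
    rw [map_mul, MulChar.pow_apply' _ hc.ne', MulChar.pow_apply' _ hc.ne', map_pow, map_pow,
      mk_resChar, mk_resChar, ← pow_mul, ← pow_mul]
  rw [Finset.sum_congr rfl fun x _ => hterm x]
  apply sum_pow_mul_one_sub_pow_eq_zero
  rw [← mul_resExp q hζ hpq]
  have hm := resExp_pos q hζ hpq
  calc 2 * (resExp q p * c) = (2 * c) * resExp q p := by ring
    _ < p * resExp q p := Nat.mul_lt_mul_of_pos_right h2c hm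

/-- If `τ ζ = ζ ^ c` with `0 < c`, `2 c < p`, then `τ J ∈ q`. -/
theorem map_stickJ_mem (τ : R →+* R) {c : ℕ} (hc : 0 < c) (h2c : 2 * c < p)
    (hτ : τ ζ = ζ ^ c) : τ (stickJ q hζ hpq) ∈ q := by
  rw [stickJ, ← jacobiSum_ringHomComp, resChar_ringHomComp q hζ hpq τ hc.ne' hτ]
  exact jacobiSum_resChar_pow_mem q hζ hpq hc h2c

theorem resChar_pow_prime : resChar q hζ hpq ^ p = 1 := by
  apply MulChar.ext
  intro u
  rw [MulChar.pow_apply' _ hp.out.ne_zero, resChar_apply_unit, MulChar.one_apply_coe, ← pow_mul,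
    mul_comm, pow_mul, hζ.pow_eq_one, one_pow]

theorem resChar_pow_pred : resChar q hζ hpq ^ (p - 1) = (resChar q hζ hpq)⁻¹ := by
  rw [eq_inv_iff_mul_eq_one, ← pow_succ, Nat.sub_add_cancel hp.out.one_le,
    resChar_pow_prime]

/-- `J * τ J = N` if `τ ζ = ζ ^ (p - 1)` (complex conjugation). -/
theorem stickJ_mul_map [CharZero R] (hp2 : p ≠ 2) (τ : R →+* R) (hτ : τ ζ = ζ ^ (p - 1)) :
    stickJ q hζ hpq * τ (stickJ q hζ hpq) = (Fintype.card (R ⧸ q) : R) := by
  letI := Ideal.Quotient.field q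
  have hp3 : 2 < p := lt_of_le_of_ne hp.out.two_le (Ne.symm hp2)
  have hinj : Function.Injective (algebraMap R (FractionRing R)) :=
    IsFractionRing.injective R (FractionRing R)
  apply hinj
  have hτJ : τ (stickJ q hζ hpq) =
      jacobiSum (resChar q hζ hpq)⁻¹ (resChar q hζ hpq)⁻¹ := by
    rw [stickJ, ← jacobiSum_ringHomComp,
      resChar_ringHomComp q hζ hpq τ (by omega) hτ, resChar_pow_pred]
  rw [hτJ, stickJ, map_mul, ← jacobiSum_ringHomComp, ← jacobiSum_ringHomComp, map_natCast,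
    ← MulChar.ringHomComp_inv]
  have hχ1 : resChar q hζ hpq ≠ 1 := by
    have := resChar_pow_ne_one q hζ hpq (c := 1) one_pos (by omega)
    rwa [pow_one] at this
  have hχ2 : resChar q hζ hpq * resChar q hζ hpq ≠ 1 := by
    have := resChar_pow_ne_one q hζ hpq (c := 2) two_pos hp3
    rwa [pow_two] at this
  apply jacobiSum_mul_jacobiSum_inv
  · have h0 : ringChar (FractionRing R) = 0 := by
      haveI : CharZero (FractionRing R) := charZero_of_injective_algebraMap hinj
      exact ringChar.eq_zero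
    rw [h0]
    intro h
    have hfin : ringChar (R ⧸ q) ≠ 0 := by
      haveI := CharP.char_ne_zero_of_finite (R ⧸ q) (ringChar (R ⧸ q))
      exact this
    exact hfin h.symm
  · exact (MulChar.ringHomComp_ne_one_iff hinj).mpr hχ1
  · exact (MulChar.ringHomComp_ne_one_iff hinj).mpr hχ1
  · rw [← MulChar.ringHomComp_mul]
    exact (MulChar.ringHomComp_ne_one_iff hinj).mpr hχ2

end jacobi

end Fermat.Agent.S14
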