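import Mathlib
import Fermat.Prelude.Def_Stickelberger_Basic
import Fermat.Agent.S14.Stick.Jacobi

/-!
# Stickelberger's theorem for degree one primes of `ℚ(ζ_p)`, via Jacobi sums

For a prime `q` of `𝓞 F`, `F = ℚ(ζ_p)`, of prime absolute norm `ℓ ≠ p`, the ideal
`∏_{0 < c < p/2} σ_c⁻¹(q)` is principal, generated by the Jacobi sum `J(χ, χ)` of the `p`-th
power residue character `χ` modulo `q`.
-/

set_option autoImplicit false
set_option linter.style.haveILetI false
set_option linter.unusedSectionVars false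

namespace Fermat.Agent.S14

open NumberField Finset

section absNormLemmas

variable {S : Type*} [CommRing S] [IsDedekindDomain S] [Module.Free ℤ S]

theorem absNorm_comap_ringEquiv (e : S ≃+* S) (I : Ideal S) :
    Ideal.absNorm (I.comap e) = Ideal.absNorm I := by
  rw [Ideal.absNorm_apply, Ideal.absNorm_apply, Submodule.cardQuot_apply,
    Submodule.cardQuot_apply]
  exact Nat.card_congr (Ideal.quotientEquiv (I.comap e) I e
    (Ideal.map_comap_of_surjective e e.surjective I).symm).toEquiv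

theorem absNorm_map_ringEquiv (e : S ≃+* S) (I : Ideal S) :
    Ideal.absNorm (I.map e) = Ideal.absNorm I := by
  rw [← Ideal.comap_symm, absNorm_comap_ringEquiv]

theorem ideal_eq_of_le_of_absNorm_eq {I J : Ideal S} (h : I ≤ J)
    (hn : Ideal.absNorm I = Ideal.absNorm J) (h0 : Ideal.absNorm I ≠ 0) : I = J := by
  obtain ⟨X, rfl⟩ := Ideal.dvd_iff_le.mpr h
  rw [map_mul] at hn h0
  have hJ0 : Ideal.absNorm J ≠ 0 := left_ne_zero_of_mul h0
  have hX : Ideal.absNorm X = 1 := by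
    have := Nat.eq_of_mul_eq_mul_left (Nat.pos_of_ne_zero hJ0) (hn.trans (mul_one _).symm)
    exact this
  rw [Ideal.absNorm_eq_one_iff.mp hX, Ideal.mul_top]

end absNormLemmas

theorem card_exponentSet {p : ℕ} (hp : p.Prime) (hp2 : p ≠ 2) :
    (Stickelberger.exponentSet p).card = (p - 1) / 2 := by
  have hodd : p % 2 = 1 := hp.eq_two_or_odd.resolve_left hp2
  have h : Stickelberger.exponentSet p = Finset.Icc 1 ((p - 1) / 2) := by
    ext c
    rw [Stickelberger.mem_exponentSet, Finset.mem_Icc]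
    omega
  rw [h, Nat.card_Icc]
  omega

section distinct

variable {R : Type*} [CommRing R] [IsDomain R] (q : Ideal R) [hq : q.IsMaximal]
  [Fintype (R ⧸ q)] {p : ℕ} [hp : Fact p.Prime] {ζ : R} (hζ : IsPrimitiveRoot ζ p)
  (hpq : (p : R) ∉ q)

include hζ hpq in
/-- Conjugates of a degree one prime under ring endomorphisms acting differently on `ζ` are
distinct. -/
theorem comap_ne_comap_of_ne (hcard : (Fintype.card (R ⧸ q)).Prime) (τ τ' : R →+* R)
    {a b : ℕ} (ha : 0 < a) (hap : a < p) (hbp : b < p) (hab : a ≠ b)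
    (hτ : τ ζ = ζ ^ a) (hτ' : τ' ζ = ζ ^ b) : Ideal.comap τ q ≠ Ideal.comap τ' q := by
  -- an integer congruent to ζ
  obtain ⟨t, ht⟩ : ∃ t : ℕ, ((t : R ⧸ q)) = Ideal.Quotient.mk q ζ := by
    let e := ZMod.ringEquivOfPrime (R ⧸ q) hcard rfl
    haveI : NeZero (Fintype.card (R ⧸ q)) := ⟨hcard.ne_zero⟩
    refine ⟨(e.symm (Ideal.Quotient.mk q ζ)).val, ?_⟩
    have h1 : ((e.symm (Ideal.Quotient.mk q ζ)).val : R ⧸ q) =
        e (((e.symm (Ideal.Quotient.mk q ζ)).val : ZMod (Fintype.card (R ⧸ q)))) := by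
      rw [map_natCast]
    rw [h1, ZMod.natCast_zmod_val, RingEquiv.apply_symm_apply]
  -- inverse of a modulo p
  have hcop : Nat.Coprime a p :=
    ((Nat.Prime.coprime_iff_not_dvd hp.out).mpr (Nat.not_dvd_of_pos_of_lt ha hap)).symm
  obtain ⟨a', -, ha'⟩ := Nat.exists_mul_mod_eq_one_of_coprime hcop hp.out.one_lt
  have ha'1 : a * a' ≡ 1 [MOD p] := by
    rw [Nat.ModEq, ha', Nat.mod_eq_of_lt hp.out.one_lt]
  have hζbar := isPrimitiveRoot_mk q hζ hpq
  intro heq
  -- the element y = ζ ^ a' - t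
  have hy : ζ ^ a' - (t : R) ∈ Ideal.comap τ q := by
    rw [Ideal.mem_comap, map_sub, map_pow, hτ, map_natCast, ← pow_mul,
      ← Ideal.Quotient.eq_zero_iff_mem, map_sub, map_natCast, ht, sub_eq_zero]
    have : ζ ^ (a * a') = ζ ^ 1 :=
      (pow_eq_pow_iff_modEq_of_isPrimitiveRoot hζ hp.out.pos).mpr ha'1
    rw [this, pow_one]
  rw [heq, Ideal.mem_comap, map_sub, map_pow, hτ', map_natCast, ← pow_mul,
    ← Ideal.Quotient.eq_zero_iff_mem, map_sub, map_natCast, ht, sub_eq_zero, map_pow] at hy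
  have h1 : b * a' ≡ 1 [MOD p] := by
    rw [← pow_eq_pow_iff_modEq_of_isPrimitiveRoot hζbar hp.out.pos, hy, pow_one]
  have h2 : a * (b * a') ≡ a * 1 [MOD p] := Nat.ModEq.mul_left a h1
  have h3 : b * (a * a') ≡ b * 1 [MOD p] := Nat.ModEq.mul_left b ha'1
  have h4 : a ≡ b [MOD p] := by
    have e : a * (b * a') = b * (a * a') := by ring
    rw [e] at h2
    rw [mul_one] at h2 h3
    exact h2.symm.trans h3
  exact hab (Nat.ModEq.eq_of_lt_of_lt h4 hap hbp)

end distinct

section main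

variable {p : ℕ} [hp : Fact p.Prime] {F : Type*} [Field F] [NumberField F]
  [IsCyclotomicExtension {p} ℚ F]

/-- **Stickelberger's theorem for degree one primes** of `ℚ(ζ_p)`: the ideal
`∏_{0 < c < p/2} τ_c⁻¹(q)` is principal, where `τ_c` is any ring automorphism of `𝓞 F` with
`τ_c ζ = ζ ^ c`. -/
theorem stick_isPrincipal (hp2 : p ≠ 2) {ζ : 𝓞 F} (hζ : IsPrimitiveRoot ζ p)
    (τ : ℕ → (𝓞 F ≃+* 𝓞 F)) (hτ : ∀ c, 0 < c → c < p → τ c ζ = ζ ^ c)
    (q : Ideal (𝓞 F)) [hqp : q.IsPrime] {ℓ : ℕ} (hℓ : ℓ.Prime) (hℓp : ℓ ≠ p)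
    (hq : Ideal.absNorm q = ℓ) :
    Submodule.IsPrincipal (∏ c ∈ Stickelberger.exponentSet p, Ideal.comap (τ c) q) := by
  classical
  have hp3 : 2 < p := lt_of_le_of_ne hp.out.two_le (Ne.symm hp2)
  have hq0 : q ≠ ⊥ := by
    intro h
    rw [h, Ideal.absNorm_bot] at hq
    exact hℓ.ne_zero hq.symm
  haveI hqm : q.IsMaximal := hqp.isMaximal hq0
  haveI : Finite (𝓞 F ⧸ q) := (Ideal.absNorm_ne_zero_iff q).mp (by rw [hq]; exact hℓ.ne_zero)
  letI : Fintype (𝓞 F ⧸ q) := Fintype.ofFinite _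
  have hcard : Fintype.card (𝓞 F ⧸ q) = ℓ := by
    rw [← hq, Ideal.absNorm_apply, Submodule.cardQuot_apply, Nat.card_eq_fintype_card]
  have hpq : (p : 𝓞 F) ∉ q := by
    intro hmem
    have h1 : ((p : ℕ) : 𝓞 F ⧸ q) = 0 := by
      rw [← map_natCast (Ideal.Quotient.mk q), Ideal.Quotient.eq_zero_iff_mem]
      exact hmem
    have h2 : ((ℓ : ℕ) : 𝓞 F ⧸ q) = 0 := by
      rw [← hcard]
      exact Nat.cast_card_eq_zero _
    have hcop : Nat.Coprime p ℓ := (Nat.coprime_primes hp.out hℓ).mpr (Ne.symm hℓp)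
    have h3 : ((Nat.gcd p ℓ : ℕ) : 𝓞 F ⧸ q) = 0 := by
      have := Nat.gcd_eq_gcd_ab p ℓ
      have h4 : ((Nat.gcd p ℓ : ℤ) : 𝓞 F ⧸ q) = 0 := by
        rw [this]
        push_cast
        rw [h1, h2, zero_mul, zero_mul, add_zero]
      exact_mod_cast h4
    rw [hcop, Nat.cast_one] at h3
    letI := Ideal.Quotient.field q
    exact one_ne_zero h3
  -- the Jacobi sum
  set J : 𝓞 F := stickJ q hζ hpq with hJ
  -- membership
  have hmem : ∀ c ∈ Stickelberger.exponentSet p, J ∈ Ideal.comap (τ c) q := by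
    intro c hc
    rw [Stickelberger.mem_exponentSet] at hc
    rw [Ideal.mem_comap]
    exact map_stickJ_mem q hζ hpq (τ c : 𝓞 F →+* 𝓞 F) hc.1 hc.2 (hτ c hc.1 (by omega))
  -- maximality of the conjugates
  have hmax : ∀ c, (Ideal.comap (τ c) q).IsMaximal := fun c =>
    Ideal.comap_isMaximal_of_equiv (τ c)
  -- pairwise coprime
  have hcop : ((Stickelberger.exponentSet p : Finset ℕ) : Set ℕ).Pairwise
      (Function.onFun IsCoprime fun c => Ideal.comap (τ c) q) := by
    intro a ha b hb hab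
    rw [Finset.mem_coe, Stickelberger.mem_exponentSet] at ha hb
    show IsCoprime (Ideal.comap (τ a) q) (Ideal.comap (τ b) q)
    rw [Ideal.isCoprime_iff_sup_eq]
    apply Ideal.IsMaximal.coprime_of_ne (hmax a) (hmax b)
    exact comap_ne_comap_of_ne q hζ hpq (hcard ▸ hℓ) (τ a : 𝓞 F →+* 𝓞 F) (τ b : 𝓞 F →+* 𝓞 F)
      ha.1 (by omega) (by omega) hab (hτ a ha.1 (by omega)) (hτ b hb.1 (by omega))
  have hle : Ideal.span {J} ≤ ∏ c ∈ Stickelberger.exponentSet p, Ideal.comap (τ c) q := by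
    rw [Ideal.prod_eq_iInf_of_pairwise_isCoprime hcop, Ideal.span_singleton_le_iff_mem]
    rw [Ideal.mem_iInf]
    intro c
    rw [Ideal.mem_iInf]
    intro hc
    exact hmem c hc
  -- norms
  have hnormP : Ideal.absNorm (∏ c ∈ Stickelberger.exponentSet p, Ideal.comap (τ c) q) =
      ℓ ^ ((p - 1) / 2) := by
    rw [map_prod, Finset.prod_congr rfl fun c _ => (absNorm_comap_ringEquiv (τ c) q).trans hq,
      Finset.prod_const, card_exponentSet hp.out hp2]
  have hrank : Module.finrank ℤ (𝓞 F) = p - 1 := by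
    haveI : NeZero p := ⟨hp.out.ne_zero⟩
    rw [RingOfIntegers.rank, IsCyclotomicExtension.Rat.finrank p F, Nat.totient_prime hp.out]
  have hnormJ : Ideal.absNorm (Ideal.span {J}) = ℓ ^ ((p - 1) / 2) := by
    have hmul := stickJ_mul_map q hζ hpq hp2 (τ (p - 1) : 𝓞 F →+* 𝓞 F)
      (hτ (p - 1) (by omega) (by omega))
    rw [← hJ, hcard] at hmul
    have h1 : Ideal.span {J} * Ideal.map (τ (p - 1)) (Ideal.span {J}) =
        Ideal.span {((ℓ : ℕ) : 𝓞 F)} := by
      rw [Ideal.map_span, Set.image_singleton, Ideal.span_singleton_mul_span_singleton]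
      exact congrArg (fun x => Ideal.span {x}) hmul
    have h2 := congrArg Ideal.absNorm h1
    rw [map_mul, absNorm_map_ringEquiv, Ideal.absNorm_span_natCast, hrank] at h2
    have hodd : p % 2 = 1 := hp.out.eq_two_or_odd.resolve_left hp2
    have h3 : ℓ ^ (p - 1) = (ℓ ^ ((p - 1) / 2)) ^ 2 := by
      rw [← pow_mul]
      congr 1
      omega
    rw [h3, ← pow_two] at h2
    exact Nat.pow_left_injective (n := 2) (by norm_num) h2
  have hne : Ideal.absNorm (Ideal.span {J}) ≠ 0 := by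
    rw [hnormJ]
    exact pow_ne_zero _ hℓ.ne_zero
  have heq := ideal_eq_of_le_of_absNorm_eq hle (hnormJ.trans hnormP.symm) hne
  rw [← heq]
  exact ⟨⟨J, rfl⟩⟩

end main

end Fermat.Agent.S14
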